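import Fermat.Agent.S36.Mod3.SpecVT
import Fermat.Agent.S36.H972.Mod3Alpha

/-!
# S36 / MOD3 — the `α`-side of the middle valuation in Spec form (helper972)

From the concrete Eisenstein instance `S36/H972/Mod3Alpha.lean` (`mod3_alpha_main`), in the exact
vocabulary of `Mod3/Spec.lean` / `Mod3/SpecVT.lean`:

* `setting_of_std`, `unram_of_std` : `Mod3.Std → A2.Mod.Setting`, `H972.Unram`;
* `leafObj : Mod3.LeafObj`  (the objects exist);
* `leafMidA` : for all `Std`, `Objs`: the six `α`-side fields of `PartVT`, VERBATIM: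
  `res_α₁`, `res_α₂`, `only_α₁`, `pi_unif`, `pi_pow`, `kron₂`
  (accessors `res_α₁_972`, …, each a `Mod3.Leaf`-shaped theorem);
* `dvr₂_972` : `V₂` is a discrete valuation ring; `ram₂_972`, `ne₁₂_972` (fields of `PartVal`).
-/

set_option autoImplicit false
set_option linter.style.haveILetI false
set_option linter.unusedSectionVars false
set_option synthInstance.maxHeartbeats 400000
set_option maxHeartbeats 1600000

noncomputable section

namespace Fermat.Agent.S36.Mod3.H972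

open ModularCurve AlgebraicCurve
open Fermat.Agent.S36.Eng Fermat.Agent.S36.H972 Fermat.Agent.A2.H48

variable {P : ValuationSubring A2.Qb} {E : IntermediateField ℚ A2.Qb} {M q : ℕ}
  [NeZero M] [NeZero q] [NeZero (M * q)] {w : A2.RE P E}

theorem setting_of_std (h : Std P E M q w) : A2.Mod.Setting P E M q w where
  q_prime := h.q_prime
  q_not_dvd := h.q_not_dvd
  M_ne_zero := NeZero.ne M
  lies_over := h.lies_over
  dvr := h.unram.1.dvr
  unif := h.unif

theorem unram_of_std (h : Std P E M q w) : Unram P E q w := by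
  have hS := setting_of_std h
  obtain ⟨c, hc⟩ := A2.Mod.H378.exists_q_eq hS
  have hq0 : ((q : ℕ) : E) ≠ 0 := Nat.cast_ne_zero.mpr h.q_prime.ne_zero
  have hw0 : (w : E) ≠ 0 := A2.Mod.H378.w_ne_zero hS
  have hwP : ((w : E) : A2.Qb) ∈ P.nonunits := by
    rw [ValuationSubring.mem_nonunits_iff]
    have h1 : P.valuation ((w : E) : A2.Qb) ≤ 1 :=
      (ValuationSubring.valuation_le_one_iff _ _).mpr w.2
    rcases lt_or_eq_of_le h1 with h2 | h2
    · exact h2
    · exfalso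
      apply A2.Mod.H378.w_inv_not_mem hS
      show algebraMap E A2.Qb ((w : E))⁻¹ ∈ P
      rw [map_inv₀, ← ValuationSubring.valuation_le_one_iff, map_inv₀]
      have : P.valuation (algebraMap E A2.Qb (w : E)) = 1 := h2
      rw [this, inv_one]
  have hr : (w : E) * ((q : ℕ) : E)⁻¹ ∈ A2.RE P E := by
    show algebraMap E A2.Qb ((w : E) * ((q : ℕ) : E)⁻¹) ∈ P
    rw [map_mul, map_inv₀, map_natCast]
    exact h.unram.2 (w : E) hwP
  have hc0 : (c : E) ≠ 0 := by
    intro h0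
    rw [h0, mul_zero] at hc
    exact hq0 hc
  have hcr : c * ⟨(w : E) * ((q : ℕ) : E)⁻¹, hr⟩ = 1 := by
    apply Subtype.ext
    show (c : E) * ((w : E) * ((q : ℕ) : E)⁻¹) = 1
    rw [hc]
    field_simp
  refine ⟨⟨c, ⟨(w : E) * ((q : ℕ) : E)⁻¹, hr⟩, hcr, by rw [mul_comm]; exact hcr⟩, ?_⟩
  exact hc

/-- membership in the nonunits from divisibility by a uniformiser-type element. -/
theorem mem_nonunits_of_mul_inv_mem {F : Type*} [Field F] {V : ValuationSubring F} {f t : F}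
    (ht : t ∈ V) (htinv : t⁻¹ ∉ V) (h : f * t⁻¹ ∈ V) : f ∈ V.nonunits := by
  have ht0 : t ≠ 0 := by
    rintro rfl
    exact htinv (by rw [inv_zero]; exact zero_mem _)
  have hf : f = (f * t⁻¹) * t := by field_simp
  rw [ValuationSubring.mem_nonunits_iff]
  have h1 : V.valuation (f * t⁻¹) ≤ 1 := (V.valuation_le_one_iff _).mpr h
  have h2 : V.valuation t < 1 := EisData.val_lt_one_of_inv_notMem ht htinv
  rw [hf, map_mul]
  calc V.valuation (f * t⁻¹) * V.valuation t ≤ 1 * V.valuation t := by gcongr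
    _ = V.valuation t := one_mul _
    _ < 1 := h2

theorem unifAt_of_isUnif {F : Type*} [Field F] {V : ValuationSubring F} {t : F}
    (h : IsUnif V t) : UnifAt V t := by
  refine ⟨h.ne_zero, ?_, ?_⟩
  · rw [ValuationSubring.mem_nonunits_iff]
    exact EisData.val_lt_one_of_inv_notMem h.mem h.inv_not_mem
  · intro f hf
    rw [ValuationSubring.mem_nonunits_iff] at hf
    by_cases hf0 : f = 0
    · rw [hf0, zero_mul]; exact zero_mem _
    exact h.gen f ((V.valuation_le_one_iff _).mp hf.le)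
      (EisData.inv_notMem_of_val_lt_one hf0 hf)

/-- **The `α`-side of the valuation table** (six fields of `Mod3.PartVT`, verbatim). -/
structure PartMidA (w : A2.RE P E) (q : ℕ)
    (α : A2.Mod.FE E (M * q) →ₐ[E] A2.Mod.FE E (M * q * q))
    (j jq jqq : A2.Mod.FE E (M * q * q))
    (V₁ V₂ : ValuationSubring (A2.Mod.FE E (M * q * q)))
    (V₁' : ValuationSubring (A2.Mod.FE E (M * q))) : Prop where
  res_α₁ : ∀ f ∈ V₁, ∃ g ∈ V₁', f - α g ∈ V₁.nonunits
  res_α₂ : ∀ f ∈ V₂, ∃ g ∈ V₁', f - α g ∈ V₂.nonunits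
  only_α₁ : ∀ V : ValuationSubring (A2.Mod.FE E (M * q * q)),
    V.comap (α : A2.Mod.FE E (M * q) →+* A2.Mod.FE E (M * q * q)) = V₁' → V = V₁ ∨ V = V₂
  pi_unif : UnifAt V₂ (jqq - j)
  pi_pow : UnitAt V₂ (algebraMap (A2.RE P E) (A2.Mod.FE E (M * q * q)) w *
    ((jqq - j) ^ (q - 1))⁻¹)
  kron₂ : jq - j ^ q ∈ V₂.nonunits ∧ jqq - j ∈ V₂.nonunits
  dvr₂ : IsDiscreteValuationRing V₂

theorem mem_comap_alpha {F F' : Type*} [Field F] [Field F'] {E : Type*} [Field E] [Algebra E F]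
    [Algebra E F'] (α : F' →ₐ[E] F) (V : ValuationSubring F) (k : F') :
    k ∈ V.comap (α : F' →+* F) ↔ α k ∈ V := by
  rw [ValuationSubring.mem_comap, RingHom.coe_coe]

/-- nonunits of `V₁'` map to nonunits of any valuation ring lying over it. -/
theorem alpha_mem_nonunits {F F' : Type*} [Field F] [Field F'] {E : Type*} [Field E]
    [Algebra E F] [Algebra E F'] {α : F' →ₐ[E] F}
    {V : ValuationSubring F} {V₁' : ValuationSubring F'}
    (hV : ∀ k, α k ∈ V ↔ k ∈ V₁')
    {k : F'} (hk : k ∈ V₁'.nonunits) : α k ∈ V.nonunits := by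
  rw [ValuationSubring.mem_nonunits_iff] at hk
  have hkV : k ∈ V₁' := (V₁'.valuation_le_one_iff _).mp hk.le
  have h1 : α k ∈ V := (hV k).mpr hkV
  by_cases hk0 : k = 0
  · rw [hk0, map_zero]
    exact (ValuationSubring.mem_nonunits_iff _).mpr (by rw [map_zero]; exact zero_lt_one)
  have h2 : (α k)⁻¹ ∉ V := by
    intro hmem
    rw [← map_inv₀] at hmem
    exact EisData.inv_notMem_of_val_lt_one hk0 hk ((hV _).mp hmem)
  rw [ValuationSubring.mem_nonunits_iff]
  exact EisData.val_lt_one_of_inv_notMem h1 h2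


theorem kron_level_one (hStd : Std P E M q w)
    {V₁' : ValuationSubring (A2.Mod.FE E (M * q))} (hV₁' : A2.Mod.IsVinf P E (M * q) V₁') :
    A2.Mod.jE E (M * q) q (dvd_mul_left q M) - (jone E M q) ^ q ∈ V₁'.nonunits := by
  have hS := setting_of_std hStd
  have hun := unram_of_std hStd
  haveI := hS.dvr
  have hq := hS.q_prime
  have hL2' := A2.Mod.H553.vinfBasic P E w (M * q) (NeZero.ne _) hS.dvr hS.unif V₁' hV₁'
  obtain ⟨u', hu'⟩ := hun
  haveI : Fact q.Prime := ⟨hq⟩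
  have hred : Fermat.Agent.S36.H83.h83_red q
      (qExpand ℤ q (jqModC ℤ) - jqModC ℤ ^ q) = 0 := by
    rw [map_sub, Fermat.Agent.S36.H83.h83_red_jp, map_pow,
      Fermat.Agent.S36.H83.h83_red_j, sub_self]
  obtain ⟨H, hH⟩ := Fermat.Agent.S36.H83.h83_dvd_of_red_eq_zero q hred
  set d : A2.Mod.FE E (M * q) :=
    A2.Mod.jE E (M * q) q (dvd_mul_left q M) - (jone E M q) ^ q with hd
  have hdser : (d : LaurentSeries E) = ((q : ℕ) : LaurentSeries E) * castE E H := by
    have h2 : (d : LaurentSeries E) =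
        ((A2.Mod.jE E (M * q) q (dvd_mul_left q M) : A2.Mod.FE E (M * q)) :
          LaurentSeries E) - ((jone E M q : A2.Mod.FE E (M * q)) : LaurentSeries E) ^ q :=
      rfl
    rw [h2, coe_jE', coe_jone, ← map_pow, ← map_sub, hH, map_mul, castE_natCast]
  have hq0 : ((q : ℕ) : A2.Mod.FE E (M * q)) ≠ 0 := Nat.cast_ne_zero.mpr hq.ne_zero
  have hfH : d * ((q : ℕ) : A2.Mod.FE E (M * q))⁻¹ ∈ V₁' := by
    refine mem_of_castE hV₁' (g := H) ?_
    have h3 : ((d * ((q : ℕ) : A2.Mod.FE E (M * q))⁻¹ : A2.Mod.FE E (M * q)) :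
        LaurentSeries E) = (d : LaurentSeries E) * (((q : ℕ) : LaurentSeries E))⁻¹ := by
      rw [IntermediateField.coe_mul, IntermediateField.coe_inv]
      simp
    have hq0' : ((q : ℕ) : LaurentSeries E) ≠ 0 := by
      intro h4
      apply hq0
      apply Subtype.ext
      simpa using h4
    rw [h3, hdser]
    field_simp
  have hqw : ((q : ℕ) : A2.Mod.FE E (M * q)) =
      A2.Mod.cE P E (M * q) w * A2.Mod.cE P E (M * q) (u' : A2.RE P E) := by
    simp only [A2.Mod.cE]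
    rw [← map_mul, ← hu', map_natCast]
  have hw0' : A2.Mod.cE P E (M * q) w ≠ 0 := hL2'.1.ne_zero
  have hu0' : A2.Mod.cE P E (M * q) (u' : A2.RE P E) ≠ 0 := by
    intro h0
    rw [h0, mul_zero] at hqw
    exact hq0 hqw
  have hdw : d * (A2.Mod.cE P E (M * q) w)⁻¹ ∈ V₁' := by
    have : d * (A2.Mod.cE P E (M * q) w)⁻¹ =
        (d * ((q : ℕ) : A2.Mod.FE E (M * q))⁻¹) *
          A2.Mod.cE P E (M * q) (u' : A2.RE P E) := by
      rw [hqw]
      field_simp
    rw [this]
    exact mul_mem hfH (cE_mem_vinf hV₁' _)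
  exact mem_nonunits_of_mul_inv_mem hL2'.1.mem hL2'.1.inv_not_mem hdw

/-- `π`-adic rank one from `w`-adic rank one when `π ^ n = w · unit`. -/
theorem arch_of_pow {F : Type*} [Field F] {V : ValuationSubring F} {ϖ t u : F} {n : ℕ}
    (hu : u ∈ V) (hpow : t ^ n = ϖ * u) (harch : ∀ f : F, ∃ k : ℕ, ϖ ^ k * f ∈ V) (f : F) :
    ∃ k : ℕ, t ^ k * f ∈ V := by
  obtain ⟨k, hk⟩ := harch f
  refine ⟨n * k, ?_⟩
  have : t ^ (n * k) * f = u ^ k * (ϖ ^ k * f) := by
    rw [pow_mul, hpow, mul_pow]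
    ring
  rw [this]
  exact mul_mem (pow_mem hu k) hk

/-- **The `α`-side of the valuation table** for the concrete objects. -/
theorem partMidA (hStd : Std P E M q w)
    {V₁' V₂' : ValuationSubring (A2.Mod.FE E (M * q))}
    {V₁ V₂ V₃ : ValuationSubring (A2.Mod.FE E (M * q * q))}
    {W' : A2.Mod.FE E (M * q) ≃ₐ[E] A2.Mod.FE E (M * q)}
    {W : A2.Mod.FE E (M * q * q) ≃ₐ[E] A2.Mod.FE E (M * q * q)}
    (hO : Objs P E M q V₁' V₂' V₁ V₂ V₃ W' W) :
    PartMidA w q (A2.Mod.αE E (M * q) q) (j1 E M q) (jq E M q) (Mod3.jqq E M q) V₁ V₂ V₁' := by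
  have hS := setting_of_std hStd
  have hun := unram_of_std hStd
  haveI := hS.dvr
  have hq := hS.q_prime
  obtain ⟨Vmid, hne, hover, hunif, ⟨u, hu1, hu2, hu3⟩, hresmid, hresV, honly⟩ :=
    mod3_alpha_main hS hun hO.vinf' hO.vinf
  have hmidover : ∀ k, A2.Mod.αE E (M * q) q k ∈ V₂ ↔ k ∈ V₁' := fun k => by
    rw [← hO.mid, mem_comap_alpha]
  have hV₂ : V₂ = Vmid := by
    rcases honly V₂ hmidover with h1 | h1
    · exact absurd h1 hO.mid_ne
    · exact h1
  have hN : M * q * q ≠ 0 := Nat.mul_ne_zero (NeZero.ne _) (NeZero.ne q)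
  have hL2 := A2.Mod.H553.vinfBasic P E w (M * q * q) hN hS.dvr hS.unif V₁ hO.vinf
  have hpi : UnifAt Vmid (Fermat.Agent.S36.H972.jqq E M q - jtop E M q) :=
    unifAt_of_isUnif hunif
  have hw0 : A2.Mod.cE P E (M * q * q) w ≠ 0 := hL2.1.ne_zero
  rw [hV₂]
  refine
    { res_α₁ := ?_
      res_α₂ := ?_
      only_α₁ := ?_
      pi_unif := hpi
      pi_pow := ?_
      kron₂ := ?_
      dvr₂ := ?_ }
  · intro f hf
    obtain ⟨g, hg, hfg⟩ := hresV f hf
    exact ⟨g, hg, mem_nonunits_of_mul_inv_mem hL2.1.mem hL2.1.inv_not_mem hfg⟩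
  · intro f hf
    obtain ⟨g, hg, hfg⟩ := hresmid f hf
    exact ⟨g, hg, mem_nonunits_of_mul_inv_mem hunif.mem hunif.inv_not_mem hfg⟩
  · intro V hV
    refine honly V fun k => ?_
    rw [← hV, mem_comap_alpha]
  · have hu0 : u ≠ 0 := by
      rintro rfl
      rw [mul_zero] at hu3
      exact hpi.1 (pow_eq_zero_iff (by have := hq.two_le; omega) |>.mp hu3)
    have hval : A2.Mod.cE P E (M * q * q) w *
        ((Fermat.Agent.S36.H972.jqq E M q - jtop E M q) ^ (q - 1))⁻¹ = u⁻¹ := by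
      rw [hu3]
      field_simp
    exact hval ▸ ⟨inv_ne_zero hu0, hu2, by rw [inv_inv]; exact hu1⟩
  · constructor
    · have hk := kron_level_one hStd hO.vinf'
      have h1 := alpha_mem_nonunits (α := A2.Mod.αE E (M * q) q) (V := Vmid) hover hk
      rw [map_sub, map_pow, alpha_jone, A2.Mod.H553.αE_jE] at h1
      exact h1
    · exact hpi.2.1
  · refine isDiscreteValuationRing_of_isUnif hunif
      (arch_of_pow hu1 hu3 (fun f => ?_))
    letI : Algebra (A2.Mod.FE E (M * q)) (A2.Mod.FE E (M * q * q)) :=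
      algebraAlong (A2.Mod.αE E (M * q) q)
    haveI : FiniteDimensional (A2.Mod.FE E (M * q)) (A2.Mod.FE E (M * q * q)) :=
      finite_alpha hq
    have hint : IsIntegral (A2.Mod.FE E (M * q)) f := Algebra.IsIntegral.isIntegral f
    have hL2' := A2.Mod.H553.vinfBasic P E w (M * q) (NeZero.ne _) hS.dvr hS.unif V₁' hO.vinf'
    have h := exists_pow_mul_mem (O := V₁') hL2'.1.mem (arch_vinf hS.unif hO.vinf') Vmid
      (fun a ha => (hover a).mpr ha) hint
    obtain ⟨k, hk⟩ := h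
    refine ⟨k, ?_⟩
    have hcw : algebraMap (A2.Mod.FE E (M * q)) (A2.Mod.FE E (M * q * q))
        (A2.Mod.cE P E (M * q) w) = A2.Mod.cE P E (M * q * q) w :=
      alpha_cE' (M * q) w
    rw [hcw] at hk
    exact hk

/-- **OBJ (leaf).**  The objects of `Mod3/Spec.lean` exist. -/
theorem leafObj : LeafObj := by
  intro P E M q _ _ _ w hStd
  have hS := setting_of_std hStd
  have hun := unram_of_std hStd
  haveI := hS.dvr
  have hN : M * q * q ≠ 0 := Nat.mul_ne_zero (NeZero.ne _) (NeZero.ne q)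
  obtain ⟨V₁', hV₁'⟩ := A2.Mod.H553.vinfExists P E (M * q) (NeZero.ne _) hS.dvr
  obtain ⟨V₁, hV₁⟩ := A2.Mod.H553.vinfExists P E (M * q * q) hN hS.dvr
  obtain ⟨Vmid, hne, hover, -⟩ := mod3_alpha_main hS hun hV₁' hV₁
  refine ⟨V₁', V₁'.comap (A2.Mod.H553.wE E (M * q) :
      A2.Mod.FE E (M * q) →+* A2.Mod.FE E (M * q)), V₁, Vmid,
    V₁.comap (A2.Mod.H553.wE E (M * q * q) :
      A2.Mod.FE E (M * q * q) →+* A2.Mod.FE E (M * q * q)),
    A2.Mod.H553.wE E (M * q), A2.Mod.H553.wE E (M * q * q), ?_⟩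
  exact
    { vinf' := hV₁'
      fricke' := A2.Mod.H553.isFricke_wE E (M * q)
      vzero' := rfl
      vinf := hV₁
      fricke := A2.Mod.H553.isFricke_wE E (M * q * q)
      vzero := rfl
      mid := by
        ext k
        rw [mem_comap_alpha]
        exact hover k
      mid_ne := hne }

/-- **MID-A (leaf).**  The `α`-side of the valuation table, in `Mod3.Leaf` form. -/
theorem leafMidA :
    Leaf fun P E M q _ _ _ w V₁' _ V₁ V₂ _ =>
      PartMidA (P := P) w q (A2.Mod.αE E (M * q) q) (j1 E M q) (jq E M q) (Mod3.jqq E M q)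
        V₁ V₂ V₁' :=
  fun _ _ _ _ _ _ _ _ hStd _ _ _ _ _ _ _ hO => partMidA hStd hO

end Fermat.Agent.S36.Mod3.H972

end
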